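/-
P-ES / KL-M-CONST (row 500, helper98): a field `K` is algebraically closed in `K((q))`, and an
integrally closed domain with fraction field `K` is integrally closed in `K((q))`.
Mathlib only.
-/
import Mathlib

set_option autoImplicit false
set_option linter.style.haveILetI false

open Polynomial

namespace Fermat.Agent.H98.KL

variable {K : Type*} [Field K]

theorem algebraMap_eq_C (a : K) : algebraMap K (LaurentSeries K) a = HahnSeries.C a := by
  rw [HahnSeries.algebraMap_apply']
  simp

theorem addVal_algebraMap_nonneg (a : K) :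
    0 ≤ HahnSeries.addVal ℤ K (algebraMap K (LaurentSeries K) a) := by
  rw [HahnSeries.addVal_apply, algebraMap_eq_C, HahnSeries.C_apply]
  exact_mod_cast HahnSeries.orderTop_single_le

theorem addVal_algebraMap_of_ne_zero {a : K} (ha : a ≠ 0) :
    HahnSeries.addVal ℤ K (algebraMap K (LaurentSeries K) a) = 0 := by
  rw [HahnSeries.addVal_apply, algebraMap_eq_C, HahnSeries.C_apply]
  exact_mod_cast HahnSeries.orderTop_single ha

/-- Values of polynomials at Laurent series of nonnegative order have nonnegative order. -/
theorem addVal_aeval_nonneg (w : LaurentSeries K) (hw : 0 ≤ HahnSeries.addVal ℤ K w)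
    (Q : K[X]) : 0 ≤ HahnSeries.addVal ℤ K (aeval w Q) := by
  induction Q using Polynomial.induction_on' with
  | add p q hp hq =>
    rw [map_add]
    exact le_trans (le_min hp hq) (AddValuation.map_add _ _ _)
  | monomial n a =>
    rw [aeval_monomial, AddValuation.map_mul, AddValuation.map_pow]
    exact add_nonneg (addVal_algebraMap_nonneg a) (nsmul_nonneg hw n)

/-- An algebraic Laurent series of positive order is zero. -/
theorem eq_zero_of_isAlgebraic_of_pos (w : LaurentSeries K) (hw : IsAlgebraic K w)
    (hpos : 0 < HahnSeries.addVal ℤ K w) : w = 0 := by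
  by_contra hne
  have hint : IsIntegral K w := hw.isIntegral
  have hc0 := minpoly.coeff_zero_ne_zero hint hne
  have haeval : aeval w ((minpoly K w).divX * X + C ((minpoly K w).coeff 0)) = 0 := by
    rw [Polynomial.divX_mul_X_add]
    exact minpoly.aeval K w
  simp only [map_add, map_mul, aeval_X, aeval_C] at haeval
  have h1 : algebraMap K (LaurentSeries K) ((minpoly K w).coeff 0)
      = -(aeval w (minpoly K w).divX * w) := eq_neg_of_add_eq_zero_right haeval
  have h2 := addVal_algebraMap_of_ne_zero hc0
  rw [h1, AddValuation.map_neg, AddValuation.map_mul] at h2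
  have h3 := addVal_aeval_nonneg w hpos.le (minpoly K w).divX
  have h4 : HahnSeries.addVal ℤ K w
      ≤ HahnSeries.addVal ℤ K (aeval w (minpoly K w).divX) + HahnSeries.addVal ℤ K w :=
    le_add_of_nonneg_left h3
  rw [h2] at h4
  exact absurd hpos (not_lt.mpr h4)

/-- A nonzero algebraic Laurent series has order zero. -/
theorem order_eq_zero_of_isAlgebraic (y : LaurentSeries K) (hy : IsAlgebraic K y)
    (hne : y ≠ 0) : y.order = 0 := by
  rcases lt_trichotomy y.order 0 with h | h | h
  · have hinv : IsAlgebraic K y⁻¹ := hy.inv
    have hne' : y⁻¹ ≠ 0 := inv_ne_zero hne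
    have hord : y⁻¹.order = - y.order := by
      have := HahnSeries.order_mul hne hne'
      rw [mul_inv_cancel₀ hne, HahnSeries.order_one] at this
      omega
    have hpos : 0 < HahnSeries.addVal ℤ K y⁻¹ := by
      rw [HahnSeries.addVal_apply_of_ne hne', hord]
      exact_mod_cast (by omega : 0 < - y.order)
    exact absurd (eq_zero_of_isAlgebraic_of_pos _ hinv hpos) hne'
  · exact h
  · have hpos : 0 < HahnSeries.addVal ℤ K y := by
      rw [HahnSeries.addVal_apply_of_ne hne]
      exact_mod_cast h
    exact absurd (eq_zero_of_isAlgebraic_of_pos _ hy hpos) hne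

/-- **`K` is algebraically closed in `K((q))`.** -/
theorem exists_const_of_isAlgebraic (z : LaurentSeries K) (hz : IsAlgebraic K z) :
    ∃ c : K, algebraMap K (LaurentSeries K) c = z := by
  refine ⟨z.coeff 0, ?_⟩
  by_contra hne
  have hyne : z - algebraMap K (LaurentSeries K) (z.coeff 0) ≠ 0 :=
    fun h => hne (sub_eq_zero.mp h).symm
  have hyalg : IsAlgebraic K (z - algebraMap K (LaurentSeries K) (z.coeff 0)) :=
    hz.sub (isAlgebraic_algebraMap _)
  have hord := order_eq_zero_of_isAlgebraic _ hyalg hyne
  have hcoeff : (z - algebraMap K (LaurentSeries K) (z.coeff 0)).coeff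
      (z - algebraMap K (LaurentSeries K) (z.coeff 0)).order ≠ 0 :=
    fun h => hyne (HahnSeries.coeff_order_eq_zero.mp h)
  rw [hord] at hcoeff
  apply hcoeff
  rw [HahnSeries.coeff_sub, algebraMap_eq_C, HahnSeries.C_apply,
    HahnSeries.coeff_single_same, sub_self]

/-- **KL-M-CONST, explicit form.**  An integrally closed domain `A` with fraction field `K` is
integrally closed in `K((q))`: for every ring homomorphism `φ : A → K((q))` which is the
composite of `A → K` and the constants `K → K((q))`, every `φ`-integral Laurent series is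
a constant from `A`. -/
theorem exists_of_isIntegralElem (A : Type*) [CommRing A] [IsDomain A] [IsIntegrallyClosed A]
    [Algebra A K] [IsFractionRing A K] (z : LaurentSeries K)
    (hz : ((algebraMap K (LaurentSeries K)).comp (algebraMap A K)).IsIntegralElem z) :
    ∃ a : A, z = HahnSeries.C (algebraMap A K a) := by
  obtain ⟨p, hp, hpz⟩ := hz
  have hzK : IsIntegral K z := by
    refine ⟨p.map (algebraMap A K), hp.map _, ?_⟩
    rw [Polynomial.eval₂_map]
    exact hpz
  obtain ⟨c, hc⟩ := exists_const_of_isAlgebraic z hzK.isAlgebraic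
  have hcint : IsIntegral A c := by
    refine ⟨p, hp, ?_⟩
    have h1 : Polynomial.eval₂ ((algebraMap K (LaurentSeries K)).comp (algebraMap A K))
        (algebraMap K (LaurentSeries K) c) p = 0 := by rw [hc]; exact hpz
    rw [← Polynomial.hom_eval₂] at h1
    exact (algebraMap K (LaurentSeries K)).injective (by rw [h1, map_zero])
  obtain ⟨a, ha⟩ := IsIntegrallyClosed.isIntegral_iff.mp hcint
  exact ⟨a, by rw [ha, ← algebraMap_eq_C, hc]⟩

/-- **KL-M-CONST, algebra form.**  Same statement for an `A`-algebra structure on `K((q))`
whose structure map is `a ↦ C (algebraMap A K a)`. -/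
theorem mem_range_of_isIntegral (A : Type*) [CommRing A] [IsDomain A] [IsIntegrallyClosed A]
    [Algebra A K] [IsFractionRing A K] [Algebra A (LaurentSeries K)]
    (halg : ∀ a : A, algebraMap A (LaurentSeries K) a = HahnSeries.C (algebraMap A K a))
    (z : LaurentSeries K) (hz : IsIntegral A z) :
    z ∈ (algebraMap A (LaurentSeries K)).range := by
  have hφ : algebraMap A (LaurentSeries K)
      = (algebraMap K (LaurentSeries K)).comp (algebraMap A K) := by
    ext1 a
    rw [halg, RingHom.comp_apply, algebraMap_eq_C]
  have hz' : ((algebraMap K (LaurentSeries K)).comp (algebraMap A K)).IsIntegralElem z := by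
    rw [← hφ]
    exact hz
  obtain ⟨a, ha⟩ := exists_of_isIntegralElem A z hz'
  exact ⟨a, by rw [halg, ha]⟩

end Fermat.Agent.H98.KL
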